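import Fermat.Agent.S57.RegularPS

set_option autoImplicit false

open CategoryTheory IsLocalRing RingTheory.Sequence Pointwise

namespace Fermat.Agent.S57aux

lemma FA_S57_regPar_of_ringEquiv {B B' : Type} [CommRing B] [IsLocalRing B] [CommRing B']
    [IsLocalRing B'] (e : B ≃+* B') (rs : List B) (hreg : IsWeaklyRegular B rs)
    (hmax : Ideal.ofList rs = maximalIdeal B) :
    IsWeaklyRegular B' (rs.map e) ∧ Ideal.ofList (rs.map e) = maximalIdeal B' := by
  refine ⟨?_, ?_⟩
  · refine (AddEquiv.isWeaklyRegular_congr (e := e.toAddEquiv) ?_).mp hreg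
    refine List.forall₂_map_right_iff.mpr (List.forall₂_same.mpr fun r _ x => ?_)
    simp
  · have h1 : Ideal.ofList (rs.map e) = (Ideal.ofList rs).map (e : B →+* B') := by
      rw [Ideal.map_ofList]
      rfl
    rw [h1, hmax]
    exact IsLocalRing.eq_maximalIdeal (Ideal.map_isMaximal_of_equiv e)

open PowerSeries in
lemma FA_S57_regPar_powerSeries {B : Type} [CommRing B] [IsLocalRing B] (rs : List B)
    (hreg : IsWeaklyRegular B rs) (hmax : Ideal.ofList rs = maximalIdeal B) :
    IsWeaklyRegular B⟦X⟧ (X :: rs.map (C (R := B))) ∧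
      Ideal.ofList (X :: rs.map (C (R := B))) = maximalIdeal B⟦X⟧ := by
  refine ⟨?_, ?_⟩
  · rw [isWeaklyRegular_cons_iff]
    constructor
    · intro f g hfg
      exact PowerSeries.X_mul_cancel (by simpa using hfg)
    · refine (AddEquiv.isWeaklyRegular_congr (e := (FA_S57_quotX B).symm) ?_).mp hreg
      refine List.forall₂_map_right_iff.mpr (List.forall₂_same.mpr fun r _ x => ?_)
      rw [AddEquiv.symm_apply_eq]
      obtain ⟨y, hy⟩ := (FA_S57_quotX B).surjective x
      obtain ⟨f, rfl⟩ := Submodule.Quotient.mk_surjective _ y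
      subst hy
      rw [AddEquiv.symm_apply_apply, ← Submodule.Quotient.mk_smul, FA_S57_quotX_mk,
        FA_S57_quotX_mk]
      simp
  · rw [Ideal.ofList_cons]
    have h1 : Ideal.ofList (rs.map (C (R := B))) = (Ideal.ofList rs).map (C (R := B)) := by
      rw [Ideal.map_ofList]
    rw [h1, hmax]
    apply le_antisymm
    · rw [sup_le_iff]
      constructor
      · rw [Ideal.span_singleton_le_iff_mem, mem_maximalIdeal, mem_nonunits_iff,
          PowerSeries.isUnit_iff_constantCoeff]
        simp
      · rw [Ideal.map_le_iff_le_comap]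
        intro b hb
        rw [Ideal.mem_comap, mem_maximalIdeal, mem_nonunits_iff,
          PowerSeries.isUnit_iff_constantCoeff]
        simpa using hb
    · intro f hf
      rw [mem_maximalIdeal, mem_nonunits_iff, PowerSeries.isUnit_iff_constantCoeff] at hf
      have h2 : (X : B⟦X⟧) ∣ f - C (constantCoeff f) := by
        rw [PowerSeries.X_dvd_iff]; simp
      have h3 : f = (f - C (constantCoeff f)) + C (constantCoeff f) := by ring
      rw [h3]
      refine Ideal.add_mem _ (Ideal.mem_sup_left (Ideal.mem_span_singleton.mpr h2))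
        (Ideal.mem_sup_right (Ideal.mem_map_of_mem _ hf))

end Fermat.Agent.S57aux

open Fermat.Agent.S57aux in
/-- Explicit regular system of parameters of `O⟦X₁,…,X_r⟧`: every member is a variable or `C ϖ`. -/
theorem FA_S57_exists_regPar {O : Type} [CommRing O] [IsDomain O] [IsDiscreteValuationRing O]
    (ϖ : O) (hϖ : Irreducible ϖ) (r : ℕ) :
    ∃ xs : List (MvPowerSeries (Fin r) O), xs.length = r + 1 ∧
      RingTheory.Sequence.IsWeaklyRegular (MvPowerSeries (Fin r) O) xs ∧
      Ideal.ofList xs = IsLocalRing.maximalIdeal (MvPowerSeries (Fin r) O) ∧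
      ∀ x ∈ xs, (∃ i : Fin r, x = MvPowerSeries.X i) ∨ x = MvPowerSeries.C ϖ := by
  induction r with
  | zero =>
    have h0 : IsWeaklyRegular O [ϖ] ∧ Ideal.ofList [ϖ] = maximalIdeal O := by
      refine ⟨?_, ?_⟩
      · rw [isWeaklyRegular_singleton_iff]
        exact IsSMulRegular.of_ne_zero hϖ.ne_zero
      · rw [Ideal.ofList_singleton, hϖ.maximalIdeal_eq]
    obtain ⟨h1, h2⟩ := FA_S57_regPar_of_ringEquiv
      (MvPowerSeries.isEmptyEquiv (Fin 0) O).toRingEquiv.symm [ϖ] h0.1 h0.2
    refine ⟨_, ?_, h1, h2, ?_⟩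
    · simp
    · intro x hx
      right
      simp only [List.map_cons, List.map_nil, List.mem_singleton] at hx
      rw [hx]
      rfl
  | succ n ih =>
    obtain ⟨xs, hlen, hreg, hmax, hmem⟩ := ih
    obtain ⟨h1, h2⟩ := FA_S57_regPar_powerSeries xs hreg hmax
    obtain ⟨h3, h4⟩ := FA_S57_regPar_of_ringEquiv
      (MvPowerSeries.finSuccEquiv O n).toRingEquiv.symm _ h1 h2
    refine ⟨_, ?_, h3, h4, ?_⟩
    · simp [hlen]
    · intro x hx
      simp only [List.map_cons, List.map_map, List.mem_cons, List.mem_map,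
        Function.comp_apply] at hx
      rcases hx with rfl | ⟨y, hy, rfl⟩
      · left
        refine ⟨0, ?_⟩
        change (MvPowerSeries.finSuccEquiv O n).symm PowerSeries.X = _
        rw [AlgEquiv.symm_apply_eq, MvPowerSeries.finSuccEquiv_X_zero]
      · rcases hmem y hy with ⟨i, rfl⟩ | rfl
        · left
          refine ⟨i.succ, ?_⟩
          change (MvPowerSeries.finSuccEquiv O n).symm (PowerSeries.C (MvPowerSeries.X i)) = _
          rw [AlgEquiv.symm_apply_eq, MvPowerSeries.finSuccEquiv_X_succ]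
        · right
          change (MvPowerSeries.finSuccEquiv O n).symm (PowerSeries.C (MvPowerSeries.C ϖ)) = _
          rw [AlgEquiv.symm_apply_eq, MvPowerSeries.finSuccEquiv_C]
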