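import Mathlib

set_option autoImplicit false

open CategoryTheory IsLocalRing RingTheory.Sequence Pointwise

namespace Fermat.Agent.S57aux

section PD

variable {B : Type} [CommRing B] [IsLocalRing B] [IsNoetherianRing B]

/-- residue field has projective dimension `< n+1` if the maximal ideal is generated by a regular
sequence of length `n`. -/
lemma FA_S57_pd_simple (rs : List B) (hreg : IsWeaklyRegular B rs)
    (hmax : Ideal.ofList rs = maximalIdeal B)
    (L : Type) [AddCommGroup L] [Module B L] [IsSimpleModule B L] :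
    HasProjectiveDimensionLT (ModuleCat.of B L) (rs.length + 1) := by
  have hreg' : IsRegular B rs := by
    refine ⟨hreg, ?_⟩
    rw [hmax]
    intro h
    have : (maximalIdeal B) = ⊤ := by
      rw [smul_eq_mul, Ideal.mul_top] at h
      exact h.symm
    exact (Ideal.IsMaximal.ne_top inferInstance) this
  have h1 := ModuleCat.projectiveDimension_quotient_eq_length.{0} rs hreg'
  obtain ⟨I, hI, ⟨e⟩⟩ := isSimpleModule_iff_quot_maximal.mp (inferInstance : IsSimpleModule B L)
  have hI' : I = Ideal.ofList rs := by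
    rw [hmax]; exact IsLocalRing.eq_maximalIdeal hI
  subst hI'
  have e2 : L ≃ₗ[B] Shrink.{0} (B ⧸ Ideal.ofList rs) := e.trans (Shrink.linearEquiv B _).symm
  have h2 : projectiveDimension (ModuleCat.of B L) = rs.length := by
    rw [projectiveDimension_eq_of_iso e2.toModuleIso]
    exact h1
  have h3 : projectiveDimension (ModuleCat.of B L) ≤ (rs.length : ℕ) := le_of_eq h2
  exact (projectiveDimension_le_iff _ _).mp h3

lemma FA_S57_pd_finiteLength (rs : List B) (hreg : IsWeaklyRegular B rs)
    (hmax : Ideal.ofList rs = maximalIdeal B)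
    (L : Type) [AddCommGroup L] [Module B L] (hL : IsFiniteLength B L) :
    HasProjectiveDimensionLT (ModuleCat.of B L) (rs.length + 1) := by
  induction hL with
  | of_subsingleton =>
    rename_i M _ _ _
    have : Limits.IsZero (ModuleCat.of B M) := ModuleCat.isZero_of_subsingleton _
    have := this.hasProjectiveDimensionLT_zero
    exact hasProjectiveDimensionLT_of_ge _ 0 _ (Nat.zero_le _)
  | of_simple_quotient hN ih =>
    rename_i M _ _ N _
    have hS := LinearMap.shortExact_shortComplexKer (f := N.mkQ) (Submodule.mkQ_surjective N)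
    have h3 : HasProjectiveDimensionLT (N.mkQ.shortComplexKer).X₃ (rs.length + 1) :=
      FA_S57_pd_simple rs hreg hmax (M ⧸ N)
    have e : (LinearMap.ker N.mkQ) ≃ₗ[B] N := LinearEquiv.ofEq _ _ (Submodule.ker_mkQ N)
    have h1 : HasProjectiveDimensionLT (N.mkQ.shortComplexKer).X₁ (rs.length + 1) :=
      hasProjectiveDimensionLT_of_iso e.symm.toModuleIso _
    exact hS.hasProjectiveDimensionLT_X₂ _ h1 h3

/-- A finite module over a regular local ring `B` of dimension `n` having a weakly regular sequence
of length `n` in the maximal ideal with finite length quotient is free. -/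
theorem FA_S57_free_of_regular_aux (rs : List B) (hreg : IsWeaklyRegular B rs)
    (hmax : Ideal.ofList rs = maximalIdeal B)
    (N : Type) [AddCommGroup N] [Module B N] [Module.Finite B N]
    (ys : List B) (hlen : ys.length = rs.length) (hmem : ∀ x ∈ ys, x ∈ maximalIdeal B)
    (hyreg : IsWeaklyRegular N ys)
    (hfl : IsFiniteLength B (N ⧸ Ideal.ofList ys • (⊤ : Submodule B N))) :
    Module.Free B N := by
  rcases subsingleton_or_nontrivial N with hN | hN
  · infer_instance
  have h1 := ModuleCat.projectiveDimension_quotient_eq_add_length_of_isWeaklyRegular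
    (ModuleCat.of B N) ys hyreg hmem
  have h2 := FA_S57_pd_finiteLength rs hreg hmax _ hfl
  have h3 : projectiveDimension (ModuleCat.of B (N ⧸ Ideal.ofList ys • (⊤ : Submodule B N)))
      ≤ (rs.length : ℕ) := (projectiveDimension_le_iff _ _).mpr h2
  rw [h1, hlen] at h3
  have h4 : projectiveDimension (ModuleCat.of B N) ≤ (0 : ℕ) := by
    have : projectiveDimension (ModuleCat.of B N) + (rs.length : ℕ) ≤ (0 : ℕ) + (rs.length : ℕ) := by
      simpa using h3
    exact (ENat.WithBot.add_le_add_natCast_right_iff).mp this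
  have h5 : HasProjectiveDimensionLE (ModuleCat.of B N) 0 := (projectiveDimension_le_iff _ _).mp h4
  have h6 : Projective (ModuleCat.of B N) := (projective_iff_hasProjectiveDimensionLE_zero _).mpr h5
  have h7 : Module.Projective B N := (IsProjective.iff_projective _).mpr h6
  exact Module.free_of_flat_of_isLocalRing

end PD



/-- `B` has a regular system of parameters of length `n`. -/
def FA_S57_HasRegPar (B : Type) [CommRing B] [IsLocalRing B] (n : ℕ) : Prop :=
  ∃ rs : List B, rs.length = n ∧ IsWeaklyRegular B rs ∧ Ideal.ofList rs = maximalIdeal B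

lemma FA_S57_hasRegPar_of_ringEquiv {B B' : Type} [CommRing B] [IsLocalRing B] [CommRing B']
    [IsLocalRing B'] (e : B ≃+* B') {n : ℕ} (h : FA_S57_HasRegPar B n) : FA_S57_HasRegPar B' n := by
  obtain ⟨rs, hlen, hreg, hmax⟩ := h
  refine ⟨rs.map e, by simpa using hlen, ?_, ?_⟩
  · refine (AddEquiv.isWeaklyRegular_congr (e := e.toAddEquiv) ?_).mp hreg
    refine List.forall₂_map_right_iff.mpr (List.forall₂_same.mpr fun r _ x => ?_)
    simp
  · have h1 : Ideal.ofList (rs.map e) = (Ideal.ofList rs).map (e : B →+* B') := by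
      rw [Ideal.map_ofList]
      rfl
    rw [h1, hmax]
    exact IsLocalRing.eq_maximalIdeal (Ideal.map_isMaximal_of_equiv e) 

lemma FA_S57_hasRegPar_dvr (O : Type) [CommRing O] [IsDomain O] [IsDiscreteValuationRing O] :
    FA_S57_HasRegPar O 1 := by
  obtain ⟨ϖ, hϖ⟩ := IsDiscreteValuationRing.exists_irreducible O
  refine ⟨[ϖ], rfl, ?_, ?_⟩
  · rw [isWeaklyRegular_singleton_iff]
    exact IsSMulRegular.of_ne_zero hϖ.ne_zero 
  · rw [Ideal.ofList_singleton, hϖ.maximalIdeal_eq]



open PowerSeries in
lemma FA_S57_X_smul_top_eq_ker (B : Type) [CommRing B] :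
    ((X : B⟦X⟧) • (⊤ : Submodule B⟦X⟧ B⟦X⟧)).toAddSubgroup =
      (constantCoeff (R := B)).toAddMonoidHom.ker := by
  ext f
  simp only [Submodule.mem_toAddSubgroup, AddMonoidHom.mem_ker]
  rw [Submodule.mem_smul_pointwise_iff_exists]
  constructor
  · rintro ⟨g, -, rfl⟩
    simp
  · intro h
    have : (X : B⟦X⟧) ∣ f := PowerSeries.X_dvd_iff.mpr h
    obtain ⟨g, rfl⟩ := this
    exact ⟨g, trivial, rfl⟩

open PowerSeries in
noncomputable def FA_S57_quotX (B : Type) [CommRing B] :
    QuotSMulTop (X : B⟦X⟧) B⟦X⟧ ≃+ B :=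
  (QuotientAddGroup.quotientAddEquivOfEq (FA_S57_X_smul_top_eq_ker B)).trans
    (QuotientAddGroup.quotientKerEquivOfSurjective (constantCoeff (R := B)).toAddMonoidHom
      (fun b => ⟨C b, by simp⟩))

open PowerSeries in
lemma FA_S57_quotX_mk (B : Type) [CommRing B] (f : B⟦X⟧) :
    FA_S57_quotX B (Submodule.Quotient.mk f) = constantCoeff f := rfl

open PowerSeries in
lemma FA_S57_hasRegPar_powerSeries {B : Type} [CommRing B] [IsLocalRing B] {n : ℕ}
    (h : FA_S57_HasRegPar B n) : FA_S57_HasRegPar B⟦X⟧ (n + 1) := by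
  obtain ⟨rs, hlen, hreg, hmax⟩ := h
  refine ⟨X :: rs.map (C (R := B)), by simpa using hlen, ?_, ?_⟩
  · rw [isWeaklyRegular_cons_iff]
    constructor
    · intro f g hfg
      exact PowerSeries.X_mul_cancel (by simpa using hfg)
    · refine (AddEquiv.isWeaklyRegular_congr (e := (FA_S57_quotX B).symm) ?_).mp hreg
      refine List.forall₂_map_right_iff.mpr (List.forall₂_same.mpr fun r _ x => ?_)
      rw [AddEquiv.symm_apply_eq]
      obtain ⟨y, hy⟩ := (FA_S57_quotX B).surjective x
      obtain ⟨f, rfl⟩ := Submodule.Quotient.mk_surjective _ y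
      subst hy
      rw [AddEquiv.symm_apply_apply, ← Submodule.Quotient.mk_smul, FA_S57_quotX_mk,
        FA_S57_quotX_mk]
      simp
  · rw [Ideal.ofList_cons]
    have h1 : Ideal.ofList (rs.map (C (R := B))) = (Ideal.ofList rs).map (C (R := B)) := by
      rw [Ideal.map_ofList]
    rw [h1, hmax]
    apply le_antisymm
    · rw [sup_le_iff]
      constructor
      · rw [Ideal.span_singleton_le_iff_mem, mem_maximalIdeal, mem_nonunits_iff,
          PowerSeries.isUnit_iff_constantCoeff]
        simp
      · rw [Ideal.map_le_iff_le_comap]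
        intro b hb
        rw [Ideal.mem_comap, mem_maximalIdeal, mem_nonunits_iff,
          PowerSeries.isUnit_iff_constantCoeff]
        simpa using hb
    · intro f hf
      rw [mem_maximalIdeal, mem_nonunits_iff, PowerSeries.isUnit_iff_constantCoeff] at hf
      have h2 : (X : B⟦X⟧) ∣ f - C (constantCoeff f) := by
        rw [PowerSeries.X_dvd_iff]; simp
      have h3 : f = (f - C (constantCoeff f)) + C (constantCoeff f) := by ring
      rw [h3]
      refine Ideal.add_mem _ (Ideal.mem_sup_left (Ideal.mem_span_singleton.mpr h2))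
        (Ideal.mem_sup_right (Ideal.mem_map_of_mem _ hf))

lemma FA_S57_hasRegPar_mvPowerSeries (O : Type) [CommRing O] [IsDomain O]
    [IsDiscreteValuationRing O] (r : ℕ) : FA_S57_HasRegPar (MvPowerSeries (Fin r) O) (r + 1) := by
  induction r with
  | zero =>
    exact FA_S57_hasRegPar_of_ringEquiv (MvPowerSeries.isEmptyEquiv (Fin 0) O).toRingEquiv.symm
      (FA_S57_hasRegPar_dvr O)
  | succ n ih =>
    exact FA_S57_hasRegPar_of_ringEquiv (MvPowerSeries.finSuccEquiv O n).toRingEquiv.symm
      (FA_S57_hasRegPar_powerSeries ih)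

end Fermat.Agent.S57aux

open Fermat.Agent.S57aux in
/-- Interface for S57: a finite module over `O⟦X₁,…,X_r⟧` (`O` a DVR) admitting a weakly regular
sequence of length `r+1` inside the maximal ideal, with finite length quotient, is free. -/
theorem FA_S57_free_of_regular {O : Type} [CommRing O] [IsDomain O] [IsDiscreteValuationRing O]
    {r : ℕ} (N : Type) [AddCommGroup N] [Module (MvPowerSeries (Fin r) O) N]
    [Module.Finite (MvPowerSeries (Fin r) O) N]
    (rs : List (MvPowerSeries (Fin r) O)) (hlen : rs.length = r + 1)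
    (hmem : ∀ x ∈ rs, x ∈ IsLocalRing.maximalIdeal (MvPowerSeries (Fin r) O))
    (hreg : RingTheory.Sequence.IsWeaklyRegular N rs)
    (hfl : IsFiniteLength (MvPowerSeries (Fin r) O)
      (N ⧸ Ideal.ofList rs • (⊤ : Submodule (MvPowerSeries (Fin r) O) N))) :
    Module.Free (MvPowerSeries (Fin r) O) N := by
  obtain ⟨xs, hxlen, hxreg, hxmax⟩ := FA_S57_hasRegPar_mvPowerSeries O r
  exact FA_S57_free_of_regular_aux xs hxreg hxmax N rs (by rw [hlen, hxlen]) hmem hreg hfl
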